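/-
Generic tools for proving that the ring of integers of the `p`-th cyclotomic field is a PID
from explicit norm certificates (helper12, S10/S11 FLT(5,7,11,13) moonshot).
-/
import Mathlib

set_option autoImplicit false
set_option linter.unusedSectionVars false

namespace Fermat.Agent.S10.H12

open NumberField Ideal Polynomial

/-- A natural number with two distinct prime divisors is not a prime power. -/
theorem not_isPrimePow_of_two_primes {n q r : ℕ} (hq : q.Prime) (hr : r.Prime) (hqr : q ≠ r)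
    (hqn : q ∣ n) (hrn : r ∣ n) : ¬ IsPrimePow n := by
  intro h
  obtain ⟨ℓ, -, huniq⟩ := (isPrimePow_iff_unique_prime_dvd).mp h
  exact hqr ((huniq q ⟨hq, hqn⟩).trans (huniq r ⟨hr, hrn⟩).symm)

section Galois

variable {K : Type*} [Field K] [NumberField K] [IsGalois ℚ K]

/-- The norm of an algebraic integer, seen in `𝓞 K`, is the product of its Galois conjugates. -/
theorem norm_eq_prod_smul (α : 𝓞 K) :
    ((Algebra.norm ℤ α : ℤ) : 𝓞 K) = ∏ σ : Gal(K/ℚ), σ • α := by
  apply FaithfulSMul.algebraMap_injective (𝓞 K) K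
  rw [map_prod]
  have h1 : (algebraMap (𝓞 K) K) ((Algebra.norm ℤ α : ℤ) : 𝓞 K) =
      algebraMap ℚ K (Algebra.norm ℚ (α : K)) := by
    rw [← Algebra.coe_norm_int]
    simp
  rw [h1, Algebra.norm_eq_prod_automorphisms]
  rfl

theorem norm_smul_eq (σ : Gal(K/ℚ)) (α : 𝓞 K) :
    Algebra.norm ℤ (σ • α) = Algebra.norm ℤ α := by
  have h : ((Algebra.norm ℤ (σ • α) : ℤ) : ℚ) = ((Algebra.norm ℤ α : ℤ) : ℚ) := by
    rw [Algebra.coe_norm_int, Algebra.coe_norm_int]
    exact Algebra.norm_eq_of_algEquiv σ (α : K)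
  exact_mod_cast h

theorem eq_of_le_of_absNorm_eq {I J : Ideal (𝓞 K)} (hIJ : I ≤ J) (hI : absNorm I ≠ 0)
    (h : absNorm I = absNorm J) : I = J := by
  obtain ⟨L, rfl⟩ := Ideal.dvd_iff_le.mpr hIJ
  rw [map_mul] at h hI
  have hJ : absNorm J ≠ 0 := left_ne_zero_of_mul hI
  have hL : absNorm L = 1 := by
    have := Nat.eq_of_mul_eq_mul_left (Nat.pos_of_ne_zero hJ) (h.trans (mul_one _).symm)
    exact this
  rw [absNorm_eq_one_iff] at hL
  rw [hL, Ideal.mul_top]

/-- A prime ideal whose absolute norm is the absolute value of the norm of an element is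
principal (generated by a Galois conjugate of that element). -/
theorem isPrincipal_of_absNorm_eq (P : Ideal (𝓞 K)) [P.IsPrime] (α : 𝓞 K)
    (hP : absNorm P ≠ 0) (h : absNorm P = (Algebra.norm ℤ α).natAbs) : P.IsPrincipal := by
  have hmem : ((Algebra.norm ℤ α : ℤ) : 𝓞 K) ∈ P := by
    have h1 : ((absNorm P : ℕ) : 𝓞 K) ∈ P := absNorm_mem P
    rw [h] at h1
    rcases Int.natAbs_eq (Algebra.norm ℤ α) with h3 | h3
    · rw [h3, Int.cast_natCast]; exact h1
    · rw [h3, Int.cast_neg, Int.cast_natCast]; exact P.neg_mem h1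
  rw [norm_eq_prod_smul] at hmem
  obtain ⟨σ, -, hσ⟩ := (Ideal.IsPrime.prod_mem_iff).mp hmem
  have hle : span {σ • α} ≤ P := (span_singleton_le_iff_mem P).mpr hσ
  have hn : absNorm (span {σ • α}) = absNorm P := by
    rw [absNorm_span_singleton, norm_smul_eq, h]
  have heq : span {σ • α} = P := eq_of_le_of_absNorm_eq hle (hn ▸ hP) hn
  exact ⟨⟨σ • α, heq.symm⟩⟩

end Galois

section Cyclo

variable {p : ℕ} [hp : Fact p.Prime] {K : Type*} [Field K] [NumberField K]
  [hK : IsCyclotomicExtension {p} ℚ K] {ζ : K} (hζ : IsPrimitiveRoot ζ p)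

/-- A nonzero prime of the `p`-th cyclotomic ring not containing `ζ - 1` has norm `≡ 1 mod p`. -/
theorem absNorm_modEq_one (P : Ideal (𝓞 K)) [hP : P.IsPrime] (hP0 : P ≠ ⊥)
    (hPζ : hζ.toInteger - 1 ∉ P) : absNorm P ≡ 1 [MOD p] := by
  have hmax : P.IsMaximal := hP.isMaximal hP0
  let := Ideal.Quotient.field P
  have : Finite (𝓞 K ⧸ P) := Ideal.finiteQuotientOfFreeOfNeBot P hP0
  cases nonempty_fintype (𝓞 K ⧸ P)
  let z : 𝓞 K ⧸ P := Ideal.Quotient.mk P hζ.toInteger
  have hz1 : z ^ p = 1 := by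
    rw [← map_pow, hζ.toInteger_isPrimitiveRoot.pow_eq_one, map_one]
  have hzne : z ≠ 1 := by
    intro h
    apply hPζ
    rw [← Ideal.Quotient.eq_zero_iff_mem, map_sub, map_one, sub_eq_zero]
    exact h
  have hord : orderOf z = p := orderOf_eq_prime hz1 hzne
  have hz0 : z ≠ 0 := by
    rintro h
    rw [h, zero_pow hp.out.ne_zero] at hz1
    exact zero_ne_one hz1
  have hcard : z ^ (Fintype.card (𝓞 K ⧸ P) - 1) = 1 := FiniteField.pow_card_sub_one_eq_one z hz0
  have hdvd : p ∣ Fintype.card (𝓞 K ⧸ P) - 1 := hord ▸ orderOf_dvd_of_pow_eq_one hcard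
  have habs : absNorm P = Fintype.card (𝓞 K ⧸ P) := by
    rw [absNorm_apply, Submodule.cardQuot_apply, Nat.card_eq_fintype_card]
  rw [habs]
  exact ((Nat.modEq_iff_dvd' Fintype.card_pos).mpr hdvd).symm

omit hK in
/-- Reindexing a product over the units of `ZMod p` by the exponents `1 ≤ k < p`. -/
theorem prod_units_zmod {M : Type*} [CommMonoid M] (g : ℕ → M) :
    ∏ u : (ZMod p)ˣ, g u.val.val = ∏ k ∈ Finset.Ico 1 p, g k := by
  have : NeZero p := ⟨hp.out.ne_zero⟩
  refine Finset.prod_bij (fun u _ => u.val.val) ?_ ?_ ?_ ?_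
  · intro u _
    rw [Finset.mem_Ico]
    refine ⟨?_, ZMod.val_lt _⟩
    rw [Nat.one_le_iff_ne_zero]
    intro h
    exact u.ne_zero ((ZMod.val_eq_zero _).mp h)
  · intro u _ v _ h
    exact Units.ext (ZMod.val_injective p h)
  · intro k hk
    rw [Finset.mem_Ico] at hk
    have hk0 : (k : ZMod p) ≠ 0 := by
      rw [Ne, ZMod.natCast_eq_zero_iff]
      intro hdvd
      exact absurd (Nat.le_of_dvd (by omega) hdvd) (by omega)
    exact ⟨Units.mk0 (k : ZMod p) hk0, Finset.mem_univ _, ZMod.val_natCast_of_lt hk.2⟩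
  · intro u _
    rfl

/-- Product over the Galois group, reindexed by the exponents `1 ≤ k < p`. -/
theorem prod_gal_eq_prod_Ico {M : Type*} [CommMonoid M] (f : 𝓞 K → M) :
    ∏ σ : Gal(K/ℚ), f (σ • hζ.toInteger) = ∏ k ∈ Finset.Ico 1 p, f (hζ.toInteger ^ k) := by
  have : NeZero p := ⟨hp.out.ne_zero⟩
  have h1 : ∀ σ : Gal(K/ℚ), σ • hζ.toInteger =
      hζ.toInteger ^ (IsCyclotomicExtension.Rat.galEquivZMod p K σ).val.val := fun σ =>
    IsCyclotomicExtension.Rat.galEquivZMod_smul_of_pow_eq p K σ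
      hζ.toInteger_isPrimitiveRoot.pow_eq_one
  simp_rw [h1]
  refine (Fintype.prod_equiv (IsCyclotomicExtension.Rat.galEquivZMod p K).toEquiv _
    (fun u : (ZMod p)ˣ => f (hζ.toInteger ^ u.val.val)) (fun _ => rfl)).trans ?_
  exact prod_units_zmod (fun k => f (hζ.toInteger ^ k))

/-- The norm of `A(ζ)` is `∏_{k=1}^{p-1} A(ζ^k)`. -/
theorem norm_aeval_eq (A : ℤ[X]) :
    ((Algebra.norm ℤ (aeval hζ.toInteger A) : ℤ) : 𝓞 K) =
      ∏ k ∈ Finset.Ico 1 p, aeval (hζ.toInteger ^ k) A := by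
  have : IsGalois ℚ K := IsCyclotomicExtension.isGalois {p} ℚ K
  rw [norm_eq_prod_smul, ← prod_gal_eq_prod_Ico hζ (fun x => aeval x A)]
  refine Finset.prod_congr rfl fun σ _ => ?_
  exact (Polynomial.aeval_algHom_apply
    ((MulSemiringAction.toRingHom Gal(K/ℚ) (𝓞 K) σ).toIntAlgHom) hζ.toInteger A).symm

/-- If `∏_{k=1}^{p-1} A(ζ^k) = n` (an integer), then `A(ζ)` has norm `n`. -/
theorem norm_aeval_eq_of_prod (A : ℤ[X]) (n : ℤ)
    (h : ∏ k ∈ Finset.Ico 1 p, aeval (hζ.toInteger ^ k) A = (n : 𝓞 K)) :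
    Algebra.norm ℤ (aeval hζ.toInteger A) = n := by
  have := (norm_aeval_eq hζ A).trans h
  exact_mod_cast this

include hζ in
/-- PID criterion from norm certificates: if the Minkowski bound is `< B + 1` and every prime
power `n ≤ B` with `n ≡ 1 mod p` is the absolute value of the norm of an element, then the ring
of integers of the `p`-th cyclotomic field is a PID. -/
theorem isPrincipalIdealRing_of_certificates (B : ℕ)
    (hB : (4 / Real.pi) ^ InfinitePlace.nrComplexPlaces K *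
      ((Module.finrank ℚ K).factorial / (Module.finrank ℚ K) ^ Module.finrank ℚ K *
        √|(discr K : ℝ)|) < B + 1)
    (hcert : ∀ n : ℕ, 1 < n → n ≤ B → n ≡ 1 [MOD p] → IsPrimePow n →
      ∃ α : 𝓞 K, (Algebra.norm ℤ α).natAbs = n) :
    IsPrincipalIdealRing (𝓞 K) := by
  have : IsGalois ℚ K := IsCyclotomicExtension.isGalois {p} ℚ K
  refine RingOfIntegers.isPrincipalIdealRing_of_isPrincipal_of_norm_le_of_isPrime
    fun I hI hle => ?_
  have hI0 : (I : Ideal (𝓞 K)) ≠ ⊥ := nonZeroDivisors.coe_ne_zero I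
  by_cases hζI : hζ.toInteger - 1 ∈ (I : Ideal (𝓞 K))
  · have hprime : (span {hζ.toInteger - 1} : Ideal (𝓞 K)).IsPrime :=
      (span_singleton_prime hζ.zeta_sub_one_prime'.ne_zero).mpr hζ.zeta_sub_one_prime'
    have hmax : (span {hζ.toInteger - 1} : Ideal (𝓞 K)).IsMaximal :=
      hprime.isMaximal (by simpa using hζ.zeta_sub_one_prime'.ne_zero)
    have heq : span {hζ.toInteger - 1} = (I : Ideal (𝓞 K)) :=
      hmax.eq_of_le hI.ne_top ((span_singleton_le_iff_mem _).mpr hζI)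
    rw [← heq]
    exact ⟨⟨_, rfl⟩⟩
  · have hmod := absNorm_modEq_one hζ (I : Ideal (𝓞 K)) hI0 hζI
    have hmax : (I : Ideal (𝓞 K)).IsMaximal := hI.isMaximal hI0
    obtain ⟨q, n, hn, -, hq, hqn⟩ := exists_prime_and_absNorm_eq_pow (I : Ideal (𝓞 K))
    have hpp : IsPrimePow (absNorm (I : Ideal (𝓞 K))) := ⟨q, n, hq.prime, hn, hqn.symm⟩
    have h1 : 1 < absNorm (I : Ideal (𝓞 K)) := hpp.one_lt
    have hleB : absNorm (I : Ideal (𝓞 K)) ≤ B := by
      have h2 := lt_of_le_of_lt hle hB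
      exact Nat.lt_succ_iff.mp (by exact_mod_cast h2)
    obtain ⟨α, hα⟩ := hcert _ h1 hleB hmod hpp
    exact isPrincipal_of_absNorm_eq _ α (by omega) hα.symm

end Cyclo

end Fermat.Agent.S10.H12
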