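/-
The ring of integers of the 7-th cyclotomic field is a PID (helper12).
-/
import Fermat.Agent.S10.H12.PIDGeneric

set_option autoImplicit false

namespace Fermat.Agent.S10.H12

open NumberField Ideal Polynomial

/-- If `IsCyclotomicExtension {7} ℚ K` then `𝓞 K` is a principal ideal domain. -/
theorem pid_seven (K : Type) [Field K] [NumberField K] [IsCyclotomicExtension {7} ℚ K] :
    IsPrincipalIdealRing (𝓞 K) := by
  have hp7 : Fact (Nat.Prime 7) := ⟨by norm_num⟩
  have hζ := IsCyclotomicExtension.zeta_spec 7 ℚ K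
  refine isPrincipalIdealRing_of_certificates hζ 4 ?_ ?_
  · rw [IsCyclotomicExtension.Rat.discr_prime 7 K, IsCyclotomicExtension.finrank (n := 7) K
      (Polynomial.cyclotomic.irreducible_rat (by norm_num)),
      IsCyclotomicExtension.Rat.nrComplexPlaces_eq_totient_div_two 7,
      Nat.totient_prime (by norm_num)]
    have hpi : (3.1415 : ℝ) < Real.pi := Real.pi_gt_d4
    have hsqrt : √(16807 : ℝ) ≤ 129.65 := by
      rw [Real.sqrt_le_left (by norm_num)]; norm_num
    have h1 : (4 / Real.pi) ^ 3 ≤ (4 / 3.1415) ^ 3 := by gcongr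
    refine lt_of_eq_of_lt (b := (4 / Real.pi) ^ 3 * (720 / 46656 * √16807))
      (by norm_num [Nat.factorial]) ?_
    calc (4 / Real.pi) ^ 3 * (720 / 46656 * √16807)
        ≤ (4 / 3.1415) ^ 3 * (720 / 46656 * 129.65) := by gcongr
      _ < ((4 : ℕ) : ℝ) + 1 := by norm_num
  · intro n h1 hn hmod _
    exfalso
    interval_cases n <;> simp [Nat.ModEq] at hmod

end Fermat.Agent.S10.H12
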